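import Fermat.Agent.GS.Export
import Fermat.Agent.GS.FW.Near
import Fermat.Agent.GS.FW.AL

/-!
# S33-WIRE, file 5: API of `GS.TrivAt`, and the extension `wfun` of `w_p` to all Laurent series
-/

set_option autoImplicit false

noncomputable section

namespace Fermat.Agent.S33

open Fermat.Agent.GR Fermat.Agent.GS ModularCurve

variable {N N' n : ℕ} {A : ValuationSubring Qbar} {y y' : LaurentSeries Qbar}

/-- `TrivAt` in terms of `incl` and `red`. -/
theorem Triv_iff : TrivAt N n A y ↔ ∃ (f g : LaurentSeries A) (z : LaurentSeries Qbar),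
    incl A f ∈ FF Qbar N ∧ incl A g ∈ FF Qbar N ∧ red A f = red A g ∧ red A f ≠ 0 ∧
    z ∈ FF Qbar N ∧ z ≠ 0 ∧ incl A f / incl A g = y * z ^ n := by
  constructor
  · rintro ⟨a, b, ha, hb, hpa, hib, hab, z, hz, hz0, e⟩
    obtain ⟨f, rfl, hf⟩ := (isPrim_iff A).mp hpa
    obtain ⟨g, rfl⟩ := (isInt_iff A).mp hib
    exact ⟨f, g, z, ha, hb, (cong_incl_iff A f g).mp hab, hf, hz, hz0, e⟩
  · rintro ⟨f, g, z, hf, hg, hfg, hf0, hz, hz0, e⟩
    exact ⟨incl A f, incl A g, hf, hg, (isPrim_incl_iff A f).mpr hf0,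
      (isInt_iff A).mpr ⟨g, rfl⟩, (cong_incl_iff A f g).mpr hfg, z, hz, hz0, e⟩

theorem trivAt_mem (h : TrivAt N n A y) : y ∈ FF Qbar N := by
  obtain ⟨a, b, ha, hb, -, -, -, z, hz, hz0, e⟩ := h
  have h1 : y = a / b / z ^ n := by
    rw [e, mul_div_cancel_right₀ _ (pow_ne_zero n hz0)]
  rw [h1]
  exact div_mem (div_mem ha hb) (pow_mem hz n)

theorem trivAt_ne_zero (h : TrivAt N n A y) : y ≠ 0 := by
  obtain ⟨f, g, z, -, -, hfg, hf0, -, -, e⟩ := Triv_iff.mp h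
  rintro rfl
  rw [zero_mul] at e
  exact div_ne_zero (FW.Near_incl_ne_zero hf0) (FW.Near_incl_ne_zero (hfg ▸ hf0)) e

theorem trivAt_congr (h : TrivAt N n A y) (hyy' : KummerEquiv N n y y') : TrivAt N n A y' := by
  obtain ⟨a, b, ha, hb, hpa, hib, hab, z, hz, hz0, e⟩ := h
  obtain ⟨z', hz', hz0', rfl⟩ := hyy'
  refine ⟨a, b, ha, hb, hpa, hib, hab, z / z', div_mem hz hz', div_ne_zero hz0 hz0', ?_⟩
  rw [e, div_pow]
  have := pow_ne_zero n hz0'
  field_simp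

theorem trivAt_one (N n : ℕ) (A : ValuationSubring Qbar) : TrivAt N n A 1 := by
  refine Triv_iff.mpr ⟨1, 1, 1, ?_, ?_, rfl, ?_, one_mem _, one_ne_zero, ?_⟩
  · rw [map_one]; exact one_mem _
  · rw [map_one]; exact one_mem _
  · rw [map_one]; exact one_ne_zero
  · rw [map_one, div_one, one_pow, mul_one]

theorem trivAt_mul (h : TrivAt N n A y) (h' : TrivAt N n A y') : TrivAt N n A (y * y') := by
  obtain ⟨f, g, z, hf, hg, hfg, hf0, hz, hz0, e⟩ := Triv_iff.mp h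
  obtain ⟨f', g', z', hf', hg', hfg', hf0', hz', hz0', e'⟩ := Triv_iff.mp h'
  refine Triv_iff.mpr ⟨f * f', g * g', z * z', ?_, ?_, ?_, ?_, mul_mem hz hz',
    mul_ne_zero hz0 hz0', ?_⟩
  · rw [map_mul]; exact mul_mem hf hf'
  · rw [map_mul]; exact mul_mem hg hg'
  · rw [map_mul, map_mul, hfg, hfg']
  · rw [map_mul]; exact mul_ne_zero hf0 hf0'
  · rw [map_mul, map_mul, mul_div_mul_comm, e, e', mul_pow]
    ring

theorem trivAt_inv (h : TrivAt N n A y) : TrivAt N n A y⁻¹ := by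
  obtain ⟨f, g, z, hf, hg, hfg, hf0, hz, hz0, e⟩ := Triv_iff.mp h
  refine Triv_iff.mpr ⟨g, f, z⁻¹, hg, hf, hfg.symm, hfg ▸ hf0, inv_mem hz, inv_ne_zero hz0, ?_⟩
  rw [← inv_div, e, mul_inv, inv_pow]

theorem trivAt_div (h : TrivAt N n A y) (h' : TrivAt N n A y') : TrivAt N n A (y / y') := by
  rw [div_eq_mul_inv]
  exact trivAt_mul h (trivAt_inv h')

theorem trivAt_mono (hNN' : N ∣ N') (h : TrivAt N n A y) : TrivAt N' n A y := by
  obtain ⟨a, b, ha, hb, hpa, hib, hab, z, hz, hz0, e⟩ := h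
  exact ⟨a, b, FW.FF_mono hNN' ha, FW.FF_mono hNN' hb, hpa, hib, hab, z, FW.FF_mono hNN' hz, hz0, e⟩

theorem trivAt_qExpand (m : ℕ) [NeZero m] (h : TrivAt N n A y) :
    TrivAt (m * N) n A (qExpand Qbar m y) := by
  obtain ⟨f, g, z, hf, hg, hfg, hf0, hz, hz0, e⟩ := Triv_iff.mp h
  have hi : ∀ x : LaurentSeries A, incl A (qExpand A m x) = qExpand Qbar m (incl A x) := by
    intro x
    rw [incl, coeffMap_qExpand]
  have hr : ∀ x : LaurentSeries A, red A (qExpand A m x) =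
      qExpand (IsLocalRing.ResidueField A) m (red A x) := by
    intro x
    rw [red, coeffMap_qExpand]
  have hmem : ∀ {x : LaurentSeries Qbar}, x ∈ FF Qbar N → qExpand Qbar m x ∈ FF Qbar (m * N) := by
    intro x hx
    rw [mul_comm]
    exact FW.qExpand_mem_FF m hx
  refine Triv_iff.mpr ⟨qExpand A m f, qExpand A m g, qExpand Qbar m z, ?_, ?_, ?_, ?_, hmem hz,
    (map_ne_zero _).mpr hz0, ?_⟩
  · rw [hi]; exact hmem hf
  · rw [hi]; exact hmem hg
  · rw [hr, hr, hfg]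
  · rw [hr]; exact (map_ne_zero _).mpr hf0
  · rw [hi, hi, ← map_div₀, e, map_mul, map_pow]

/-! ### `w` on all Laurent series -/

open Classical in
/-- the extension of an automorphism of the function field by zero. -/
def wfun (w : FF Qbar N ≃ₐ[Qbar] FF Qbar N) (u : LaurentSeries Qbar) : LaurentSeries Qbar :=
  if h : u ∈ FF Qbar N then ((w ⟨u, h⟩ : FF Qbar N) : LaurentSeries Qbar) else 0

variable (w : FF Qbar N ≃ₐ[Qbar] FF Qbar N)

theorem wfun_coe (x : FF Qbar N) : wfun w (x : LaurentSeries Qbar) = (w x : FF Qbar N) := by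
  rw [wfun, dif_pos x.2]

theorem wfun_of_mem {u : LaurentSeries Qbar} (hu : u ∈ FF Qbar N) :
    wfun w u = (w ⟨u, hu⟩ : FF Qbar N) := by
  rw [wfun, dif_pos hu]

theorem wfun_mem (u : LaurentSeries Qbar) : wfun w u ∈ FF Qbar N := by
  by_cases hu : u ∈ FF Qbar N
  · rw [wfun_of_mem w hu]
    exact (w ⟨u, hu⟩).2
  · rw [wfun, dif_neg hu]
    exact zero_mem _

theorem wfun_one : wfun w 1 = 1 := by
  have h := wfun_coe w (1 : FF Qbar N)
  rw [map_one] at h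
  exact h

theorem wfun_mul {u v : LaurentSeries Qbar} (hu : u ∈ FF Qbar N) (hv : v ∈ FF Qbar N) :
    wfun w (u * v) = wfun w u * wfun w v := by
  have h := wfun_coe w ((⟨u, hu⟩ : FF Qbar N) * ⟨v, hv⟩)
  rw [map_mul] at h
  rw [wfun_of_mem w hu, wfun_of_mem w hv]
  exact h

theorem wfun_inv {u : LaurentSeries Qbar} (hu : u ∈ FF Qbar N) :
    wfun w u⁻¹ = (wfun w u)⁻¹ := by
  have h := wfun_coe w ((⟨u, hu⟩ : FF Qbar N)⁻¹)
  rw [map_inv₀] at h
  rw [wfun_of_mem w hu]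
  exact h

theorem wfun_div {u v : LaurentSeries Qbar} (hu : u ∈ FF Qbar N) (hv : v ∈ FF Qbar N) :
    wfun w (u / v) = wfun w u / wfun w v := by
  rw [div_eq_mul_inv, wfun_mul w hu (inv_mem hv), wfun_inv w hv, div_eq_mul_inv]

theorem wfun_pow {u : LaurentSeries Qbar} (hu : u ∈ FF Qbar N) (e : ℕ) :
    wfun w (u ^ e) = wfun w u ^ e := by
  induction e with
  | zero => rw [pow_zero, pow_zero, wfun_one]
  | succ e ih => rw [pow_succ, pow_succ, wfun_mul w (pow_mem hu e) hu, ih]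

theorem wfun_ne_zero {u : LaurentSeries Qbar} (hu : u ∈ FF Qbar N) (h0 : u ≠ 0) :
    wfun w u ≠ 0 := by
  rw [wfun_of_mem w hu]
  intro h
  have h1 : w ⟨u, hu⟩ = 0 := Subtype.ext h
  rw [map_eq_zero_iff w w.injective] at h1
  exact h0 (congrArg Subtype.val h1)

theorem isKummer_wfun {u : LaurentSeries Qbar} (hu : IsKummer (N := N) n u) :
    IsKummer (N := N) n (wfun w u) := by
  rw [wfun_of_mem w hu.mem]
  exact FW.isKummer_algEquiv w ⟨u, hu.mem⟩ hu

theorem kummerEquiv_wfun {u v : LaurentSeries Qbar} (hu : u ∈ FF Qbar N)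
    (h : KummerEquiv N n u v) : KummerEquiv N n (wfun w u) (wfun w v) := by
  obtain ⟨z, hz, hz0, rfl⟩ := h
  exact ⟨wfun w z, wfun_mem w z, wfun_ne_zero w hz hz0, by
    rw [wfun_mul w hu (pow_mem hz n), wfun_pow w hz]⟩

section AL

variable {p M0 : ℕ} [NeZero (p * M0)] {w : FF Qbar (p * M0) ≃ₐ[Qbar] FF Qbar (p * M0)}

theorem wfun_wfun (hcop : p.Coprime M0) (hw : IsWQ Qbar p M0 w) {u : LaurentSeries Qbar}
    (hu : u ∈ FF Qbar (p * M0)) : wfun w (wfun w u) = u := by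
  obtain ⟨ι⟩ := nonempty_Qbar_hom
  rw [wfun_of_mem w hu, wfun_coe, hw.invol ι hcop]

theorem wfun_gal (hcop : p.Coprime M0) (hw : IsWQ Qbar p M0 w) (σ : Qbar ≃ₐ[ℚ] Qbar)
    {u : LaurentSeries Qbar} (hu : u ∈ FF Qbar (p * M0)) :
    wfun w (gal σ u) = gal σ (wfun w u) := by
  have h := hw.gal_comm hcop σ ⟨u, hu⟩
  rw [← wfun_coe, ← wfun_of_mem w hu] at h
  exact h

theorem wfun_of_mem_level [NeZero p] (hcop : p.Coprime M0) (hw : IsWQ Qbar p M0 w)
    {u : LaurentSeries Qbar} (hu : u ∈ FF Qbar M0) : wfun w u = qExpand Qbar p u := by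
  obtain ⟨ι⟩ := nonempty_Qbar_hom
  have hu' : u ∈ FF Qbar (p * M0) := FW.FF_mono (Dvd.intro_left p rfl) hu
  rw [wfun_of_mem w hu']
  exact hw.apply_of_mem ι hcop ⟨u, hu'⟩ hu

end AL

end Fermat.Agent.S33
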