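import Fermat.Agent.S33.Wire.Local
import Fermat.Agent.S33.Alg.Main
import Fermat.Agent.GR.I.Final
import Fermat.Agent.GR.I.CharTheoryMk
import Fermat.Agent.GR.D.Top.Main

/-!
# S33-WIRE, file 10: S33 from the geometric input `GeoInput p M0 A` at all places `A` over `p`
-/

set_option autoImplicit false

namespace Fermat.Agent.S33

open Fermat.Agent.GR Fermat.Agent.GS Fermat.Agent.GR.I IsLocalRing

/-- S33, given the geometric input at all places above `p`. -/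
theorem S33_of_geoInput
    (hgeo : ∀ (p M0 : ℕ) [NeZero p], p.Prime → p ≠ 2 → M0 ≠ 0 → ¬ p ∣ M0 →
      ∀ A : ValuationSubring Qbar, A.LiesOverPrime p → GeoInput p M0 A)
    {𝒪 : Type} [CommRing 𝒪] [IsDomain 𝒪] [IsDiscreteValuationRing 𝒪]
    [IsAdicComplete (maximalIdeal 𝒪) 𝒪] [Finite (ResidueField 𝒪)]
    {p : ℕ} (hp : p.Prime) (hp2 : p ≠ 2) (hp𝒪 : (p : 𝒪) ∈ maximalIdeal 𝒪)
    {N : ℕ} [NeZero N] {S : Finset ℕ} (hN : p ∣ N ∧ ¬ p ^ 2 ∣ N)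
    (hNS : ∀ q : ℕ, q.Prime → q ∣ N → q ∈ S)
    {θ : CuspForm.heckeAlgebra N 2 (↑S : Set ℕ) →+* ResidueField 𝒪}
    {T : Type} [CommRing T] [IsLocalRing T] [IsNoetherianRing T]
    [IsAdicComplete (maximalIdeal T) T] [Algebra 𝒪 T] [IsLocalHom (algebraMap 𝒪 T)]
    [Module.Finite 𝒪 T] [Module.Free 𝒪 T]
    (H : CuspForm.HeckeGaloisRepDatum N (↑S : Set ℕ) 𝒪 θ T)
    (hres : (GaloisRepAdic.ofResidualGaloisRep H.ρ.residual).IsOrdinaryAt p) :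
    H.ρ.IsOrdinaryAt p := by
  obtain ⟨⟨M0, rfl⟩, hp2N⟩ := hN
  have hM0 : M0 ≠ 0 := by
    rintro rfl
    exact (NeZero.ne (p * 0)) (mul_zero p)
  have hpM0 : ¬ p ∣ M0 := by
    rintro ⟨c, rfl⟩
    exact hp2N ⟨c, by ring⟩
  have : NeZero p := ⟨hp.ne_zero⟩
  have hcop : p.Coprime M0 := (Nat.Prime.coprime_iff_not_dvd hp).2 hpM0
  have hpS : p ∈ S := hNS p hp (Dvd.intro M0 rfl)
  have hpS' : p ∈ (↑S : Set ℕ) := hpS
  have hNS' : ∀ q : ℕ, q.Prime → q ∣ p * M0 → q ∈ (↑S : Set ℕ) := hNS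
  let ι : Qbar →+* ℂ := (IsAlgClosed.lift (R := ℚ) (S := Qbar) (M := ℂ)).toRingHom
  let K : KummerData (p * M0) := (charTheory (p * M0)).toKummerData ι
  have hinj : Function.Injective K.hecke := B.heckeLam_injective (p * M0)
  have hcrux : CruxAll (p * M0) := cruxAll_of_modelExists D.Top.modelExists (p * M0)
  have hw : IsWQ Qbar p M0 (GT.EMB.wQ Qbar p M0) := isWQ_wQ ι hcop
  refine isOrdinaryAt_of_tower S31.frobeniusDensity hp hp𝒪 hpS hNS H hres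
    (ordTower (↑S : Set ℕ) hpS' (tateD K hcrux hp) hp hinj) (fun A hA => ?_) (fun A hA => ?_)
  · exact ⟨ordLocal hcop hw hNS' hinj (hgeo p M0 hp hp2 hM0 hpM0 A hA)⟩
  · exact (hgeo p M0 hp hp2 hM0 hpM0 A hA).ram1

end Fermat.Agent.S33
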