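import Fermat.Agent.S33.Wire.Tower
import Fermat.Agent.GS.FW.Tate

/-!
# S33-WIRE, file 3: the class of a Kummer function in `W_k = Λ / p ^ k Λ`

`IsCl k u X` : `u` is a Kummer function modulo `p ^ k` whose class is `X : W_k`
(bookkeeping on top of `GS.FW.tateRep`).
-/

set_option autoImplicit false

namespace Fermat.Agent.S33

open CuspForm Fermat.Agent.S31 Fermat.Agent.GR Fermat.Agent.GR.I Fermat.Agent.GS.FW

variable {N : ℕ} [NeZero N] {p : ℕ}

/-- the Tate data attached to a `KummerData`. -/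
noncomputable abbrev tateD (K : KummerData N) (hcrux : CruxAll N) (hp : p.Prime) :
    GR.H.TateData N p :=
  (K.toLevelData hcrux p hp).toTateData

/-- the Hecke-Galois module `W_k`. -/
noncomputable abbrev WM (S : Set ℕ) (hpS : p ∈ S) (K : KummerData N) (hcrux : CruxAll N)
    (hp : p.Prime) (k : ℕ) : HeckeGaloisModule N S p k :=
  towerM S hpS (tateD K hcrux hp) k

variable (S : Set ℕ) (hpS : p ∈ S) (K : KummerData N) (hcrux : CruxAll N) (hp : p.Prime)

/-- `u` is a Kummer function modulo `p ^ k` with class `X`. -/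
def IsCl (k : ℕ) (u : LaurentSeries Qbar) (X : (WM S hpS K hcrux hp k).W) : Prop :=
  ∃ x : K.Λ, tateRep K (p ^ k) u x ∧ tmk S hpS (tateD K hcrux hp) k x = X

variable {S hpS K hcrux hp}

theorem IsCl.isKummer {k : ℕ} {u : LaurentSeries Qbar} {X : (WM S hpS K hcrux hp k).W}
    (h : IsCl S hpS K hcrux hp k u X) : IsKummer (N := N) (p ^ k) u := by
  obtain ⟨x, hx, -⟩ := h
  exact hx.1

theorem Class_tmk_eq_iff (k : ℕ) (x y : K.Λ) :
    tmk S hpS (tateD K hcrux hp) k x = tmk S hpS (tateD K hcrux hp) k y ↔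
      K.red (p ^ k) x = K.red (p ^ k) y := by
  refine (tmk_eq_iff S hpS (tateD K hcrux hp) k x y).trans ?_
  rw [← sub_eq_zero (a := K.red (p ^ k) x), ← map_sub]
  exact (K.red_eq_zero_iff (p ^ k) (x - y)).symm

theorem exists_isCl (k : ℕ) (X : (WM S hpS K hcrux hp k).W) :
    ∃ u, IsCl S hpS K hcrux hp k u X := by
  obtain ⟨x, rfl⟩ := tmk_surjective S hpS (tateD K hcrux hp) k X
  obtain ⟨u, hu, hux⟩ := K.theta_surj (p ^ k) (pow_pos hp.pos k) x
  exact ⟨u, x, ⟨hu, hux⟩, rfl⟩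

theorem exists_isCl_of_isKummer {k : ℕ} {u : LaurentSeries Qbar}
    (hu : IsKummer (N := N) (p ^ k) u) : ∃ X, IsCl S hpS K hcrux hp k u X := by
  obtain ⟨x, hx⟩ := K.theta_mem (p ^ k) (pow_pos hp.pos k) u hu
  exact ⟨tmk S hpS (tateD K hcrux hp) k x, x, ⟨hu, hx.symm⟩, rfl⟩

theorem IsCl.eq_iff {k : ℕ} {u v : LaurentSeries Qbar} {X Y : (WM S hpS K hcrux hp k).W}
    (hu : IsCl S hpS K hcrux hp k u X) (hv : IsCl S hpS K hcrux hp k v Y) :
    X = Y ↔ KummerEquiv N (p ^ k) u v := by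
  obtain ⟨x, hx, rfl⟩ := hu
  obtain ⟨y, hy, rfl⟩ := hv
  rw [Class_tmk_eq_iff, ← hx.2, ← hy.2]
  exact K.theta_eq_iff (p ^ k) (pow_pos hp.pos k) u v hx.1 hy.1

theorem IsCl.congr {k : ℕ} {u v : LaurentSeries Qbar} {X : (WM S hpS K hcrux hp k).W}
    (hu : IsCl S hpS K hcrux hp k u X) (hv : IsKummer (N := N) (p ^ k) v)
    (h : KummerEquiv N (p ^ k) u v) : IsCl S hpS K hcrux hp k v X := by
  obtain ⟨x, hx, rfl⟩ := hu
  refine ⟨x, ⟨hv, ?_⟩, rfl⟩
  rw [← hx.2]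
  exact ((K.theta_eq_iff (p ^ k) (pow_pos hp.pos k) u v hx.1 hv).mpr h).symm

theorem isCl_one (k : ℕ) : IsCl S hpS K hcrux hp k 1 0 := by
  refine ⟨0, ⟨tate_isKummer_one _, ?_⟩, tmk_zero S hpS (tateD K hcrux hp) k⟩
  rw [tate_theta_one K (pow_pos hp.pos k), map_zero]

theorem IsCl.mul {k : ℕ} {u v : LaurentSeries Qbar} {X Y : (WM S hpS K hcrux hp k).W}
    (hu : IsCl S hpS K hcrux hp k u X) (hv : IsCl S hpS K hcrux hp k v Y) :
    IsCl S hpS K hcrux hp k (u * v) (X + Y) := by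
  obtain ⟨x, hx, rfl⟩ := hu
  obtain ⟨y, hy, rfl⟩ := hv
  exact ⟨x + y, hx.mul (pow_pos hp.pos k) hy, tmk_add S hpS (tateD K hcrux hp) k x y⟩

theorem IsCl.div {k : ℕ} {u v : LaurentSeries Qbar} {X Y : (WM S hpS K hcrux hp k).W}
    (hu : IsCl S hpS K hcrux hp k u X) (hv : IsCl S hpS K hcrux hp k v Y) :
    IsCl S hpS K hcrux hp k (u / v) (X - Y) := by
  obtain ⟨x, hx, rfl⟩ := hu
  obtain ⟨y, hy, rfl⟩ := hv
  exact ⟨x - y, hx.div (pow_pos hp.pos k) hy, tmk_sub S hpS (tateD K hcrux hp) k x y⟩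

theorem IsCl.inv {k : ℕ} {u : LaurentSeries Qbar} {X : (WM S hpS K hcrux hp k).W}
    (hu : IsCl S hpS K hcrux hp k u X) : IsCl S hpS K hcrux hp k u⁻¹ (-X) := by
  have h := (isCl_one (S := S) (hpS := hpS) (K := K) (hcrux := hcrux) (hp := hp) k).div hu
  rwa [one_div, zero_sub] at h

theorem IsCl.pow {k : ℕ} {u : LaurentSeries Qbar} {X : (WM S hpS K hcrux hp k).W}
    (hu : IsCl S hpS K hcrux hp k u X) (e : ℕ) : IsCl S hpS K hcrux hp k (u ^ e) (e • X) := by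
  obtain ⟨x, hx, rfl⟩ := hu
  refine ⟨(e : ℤ) • x, hx.pow (pow_pos hp.pos k) e, ?_⟩
  rw [natCast_zsmul]
  exact tmk_nsmul S hpS (tateD K hcrux hp) k e x

/-! ### level one, with `p` instead of `p ^ 1` -/

theorem IsCl.isKummer₁ {u : LaurentSeries Qbar} {X : (WM S hpS K hcrux hp 1).W}
    (h : IsCl S hpS K hcrux hp 1 u X) : IsKummer (N := N) p u := by
  have := h.isKummer
  rwa [pow_one] at this

theorem exists_isCl₁_of_isKummer {u : LaurentSeries Qbar} (hu : IsKummer (N := N) p u) :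
    ∃ X, IsCl S hpS K hcrux hp 1 u X :=
  exists_isCl_of_isKummer (by rwa [pow_one])

theorem IsCl.eq_iff₁ {u v : LaurentSeries Qbar} {X Y : (WM S hpS K hcrux hp 1).W}
    (hu : IsCl S hpS K hcrux hp 1 u X) (hv : IsCl S hpS K hcrux hp 1 v Y) :
    X = Y ↔ KummerEquiv N p u v := by
  have := hu.eq_iff hv
  rwa [pow_one] at this

theorem IsCl.congr₁ {u v : LaurentSeries Qbar} {X : (WM S hpS K hcrux hp 1).W}
    (hu : IsCl S hpS K hcrux hp 1 u X) (hv : IsKummer (N := N) p v)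
    (h : KummerEquiv N p u v) : IsCl S hpS K hcrux hp 1 v X :=
  hu.congr (by rwa [pow_one]) (by rwa [pow_one])

/-- a multiplicative operator on Kummer functions induces an additive endomorphism of `W_k`. -/
theorem exists_lift_isCl (k : ℕ) (f : LaurentSeries Qbar → LaurentSeries Qbar)
    (h1 : ∀ u, IsKummer (N := N) (p ^ k) u → IsKummer (N := N) (p ^ k) (f u))
    (h2 : ∀ u v, IsKummer (N := N) (p ^ k) u → IsKummer (N := N) (p ^ k) v →
      KummerEquiv N (p ^ k) (f (u * v)) (f u * f v))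
    (h3 : ∀ u v, IsKummer (N := N) (p ^ k) u → IsKummer (N := N) (p ^ k) v →
      KummerEquiv N (p ^ k) u v → KummerEquiv N (p ^ k) (f u) (f v)) :
    ∃ F : (WM S hpS K hcrux hp k).W →+ (WM S hpS K hcrux hp k).W,
      ∀ u X, IsCl S hpS K hcrux hp k u X → IsCl S hpS K hcrux hp k (f u) (F X) := by
  choose U hU using fun X : (WM S hpS K hcrux hp k).W =>
    exists_isCl (S := S) (hpS := hpS) (K := K) (hcrux := hcrux) (hp := hp) k X
  choose F0 hF0 using fun X : (WM S hpS K hcrux hp k).W =>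
    exists_isCl_of_isKummer (S := S) (hpS := hpS) (K := K) (hcrux := hcrux) (hp := hp)
      (h1 (U X) (hU X).isKummer)
  have key : ∀ u X, IsCl S hpS K hcrux hp k u X → IsCl S hpS K hcrux hp k (f u) (F0 X) := by
    intro u X hu
    have h4 : KummerEquiv N (p ^ k) (U X) u := ((hU X).eq_iff hu).1 rfl
    exact (hF0 X).congr (h1 u hu.isKummer) (h3 _ _ (hU X).isKummer hu.isKummer h4)
  have hadd : ∀ X Y, F0 (X + Y) = F0 X + F0 Y := by
    intro X Y
    have h5 := key _ _ ((hU X).mul (hU Y))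
    exact (h5.eq_iff ((hF0 X).mul (hF0 Y))).2 (h2 _ _ (hU X).isKummer (hU Y).isKummer)
  exact ⟨AddMonoidHom.mk' F0 hadd, key⟩

end Fermat.Agent.S33
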