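import Fermat.Agent.S33.Wire.Class

/-!
# S33-WIRE, file 3b: Galois action, Hecke operators and reduction on classes
-/

set_option autoImplicit false

namespace Fermat.Agent.S33

open CuspForm Fermat.Agent.S31 Fermat.Agent.GR Fermat.Agent.GR.I Fermat.Agent.GS.FW

variable {N : ℕ} [NeZero N] {p : ℕ}
  {S : Set ℕ} {hpS : p ∈ S} {K : KummerData N} {hcrux : CruxAll N} {hp : p.Prime}

theorem IsCl.gal {k : ℕ} {u : LaurentSeries Qbar} {X : (WM S hpS K hcrux hp k).W}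
    (hu : IsCl S hpS K hcrux hp k u X) (σ : GQ) :
    IsCl S hpS K hcrux hp k (GR.gal σ u) ((WM S hpS K hcrux hp k).r σ X) := by
  obtain ⟨x, hx, rfl⟩ := hu
  exact ⟨_, hx.gal hcrux hp k σ, (r_tmk S hpS (tateD K hcrux hp) k σ x).symm⟩

theorem IsCl.heckeT {k : ℕ} {u : LaurentSeries Qbar} {X : (WM S hpS K hcrux hp k).W}
    (hu : IsCl S hpS K hcrux hp k u X) {ℓ : ℕ} [NeZero ℓ] (hℓ : ℓ.Prime) (hℓN : ¬ ℓ ∣ N)
    (hℓS : ℓ ∉ S) {ζ : Qbarˣ} (hζ : IsPrimitiveRoot ζ ℓ) :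
    IsCl S hpS K hcrux hp k (heckeMulT ℓ ζ u)
      ((heckeAlgebra.T hℓ hℓN hℓS : heckeAlgebra N 2 S) • X) := by
  obtain ⟨x, hx, rfl⟩ := hu
  refine ⟨K.hecke (GR.H.HeckeFull.T hℓ hℓN) x,
    ⟨(K.heckeStable (p ^ k) ℓ ζ hℓ hℓN hζ).2 u hx.1,
      K.theta_heckeT (p ^ k) (pow_pos hp.pos k) ℓ hℓ hℓN ζ hζ u x hx.1 hx.2⟩, ?_⟩
  rw [smul_tmk, incH_T]
  rfl

/-- the operator `U_q` on `W_k`. -/
noncomputable def UW (S : Set ℕ) (hpS : p ∈ S) (K : KummerData N) (hcrux : CruxAll N)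
    (hp : p.Prime) (k : ℕ) {q : ℕ} (hq : q.Prime) (hqN : q ∣ N) :
    (WM S hpS K hcrux hp k).W →+ (WM S hpS K hcrux hp k).W :=
  tEnd S hpS (tateD K hcrux hp) k
    ((tateD K hcrux hp).hecke (heckeAlgebra.U hq hqN (Set.notMem_empty q)))

theorem IsCl.normT {k : ℕ} {u : LaurentSeries Qbar} {X : (WM S hpS K hcrux hp k).W}
    (hu : IsCl S hpS K hcrux hp k u X) {q : ℕ} [NeZero q] (hq : q.Prime) (hqN : q ∣ N)
    {ζ : Qbarˣ} (hζ : IsPrimitiveRoot ζ q) :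
    IsCl S hpS K hcrux hp k (normT q ζ u) (UW S hpS K hcrux hp k hq hqN X) := by
  obtain ⟨x, hx, rfl⟩ := hu
  exact ⟨_, hx.normT (pow_pos hp.pos k) hq hqN hζ, (tEnd_tmk S hpS (tateD K hcrux hp) k _ x).symm⟩

theorem UW_smul (k : ℕ) {q : ℕ} (hq : q.Prime) (hqN : q ∣ N) (a : heckeAlgebra N 2 S)
    (X : (WM S hpS K hcrux hp k).W) :
    UW S hpS K hcrux hp k hq hqN (a • X) = a • UW S hpS K hcrux hp k hq hqN X := by
  obtain ⟨x, rfl⟩ := tmk_surjective S hpS (tateD K hcrux hp) k X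
  unfold UW
  rw [smul_tmk, tEnd_tmk, tEnd_tmk, smul_tmk]
  congr 1
  rw [← Module.End.mul_apply, ← Module.End.mul_apply, ← map_mul, ← map_mul, mul_comm]

theorem UW_gal (k : ℕ) {q : ℕ} (hq : q.Prime) (hqN : q ∣ N) (σ : GQ)
    (X : (WM S hpS K hcrux hp k).W) :
    UW S hpS K hcrux hp k hq hqN ((WM S hpS K hcrux hp k).r σ X) =
      (WM S hpS K hcrux hp k).r σ (UW S hpS K hcrux hp k hq hqN X) := by
  obtain ⟨x, rfl⟩ := tmk_surjective S hpS (tateD K hcrux hp) k X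
  have key := Bridge_red_eq _
    ((tateD K hcrux hp).gal_hecke k σ (heckeAlgebra.U hq hqN (Set.notMem_empty q)))
  have key' := LinearMap.congr_fun key (Submodule.Quotient.mk x)
  exact key'.symm

theorem IsCl.red {k : ℕ} (hk : 1 ≤ k) {u : LaurentSeries Qbar}
    {X : (WM S hpS K hcrux hp k).W} (hu : IsCl S hpS K hcrux hp k u X) :
    IsCl S hpS K hcrux hp 1 u (tred S hpS (tateD K hcrux hp) k X) := by
  obtain ⟨x, hx, rfl⟩ := hu
  refine ⟨x, ⟨isKummer_of_dvd (pow_dvd_pow p hk) hx.1, ?_⟩,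
    (tred_tmk S hpS (tateD K hcrux hp) hk x).symm⟩
  rw [← K.theta_cast (pow_dvd_pow p hk) (pow_pos hp.pos k) u hx.1, hx.2, K.cast_red]

end Fermat.Agent.S33
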