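import Fermat.Agent.S31.Iface
import Fermat.Agent.Lib.Frobenius

/-!
# S33-WIRE, file 4: on a Hecke-Galois module `T_ℓ = Frob_ℓ + ℓ Frob_ℓ⁻¹`

Consequences: an additive endomorphism which commutes with `G_ℚ` commutes with the anemic Hecke
algebra; a subgroup which is stable under the `T_ℓ` is stable under the anemic Hecke algebra.
-/

set_option autoImplicit false

namespace Fermat.Agent.S33

open CuspForm Fermat.Agent.S31

variable {N : ℕ} [NeZero N] {S : Set ℕ} {p k : ℕ}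

/-- Eichler-Shimura, solved for `T_ℓ`. -/
theorem T_smul_eq (M : HeckeGaloisModule N S p k) {ℓ : ℕ} (hℓ : ℓ.Prime) (hℓN : ¬ ℓ ∣ N)
    (hℓS : ℓ ∉ S) : ∃ σ : GQ, ∀ x : M.W,
      (heckeAlgebra.T hℓ hℓN hℓS : heckeAlgebra N 2 S) • x = M.r σ x + ℓ • M.r σ⁻¹ x := by
  obtain ⟨A, σ, hA, hσ⟩ := Lib.Frobenius.exists_isFrobeniusAt ℓ hℓ
  refine ⟨σ, fun x => ?_⟩
  have h := M.eichlerShimura ℓ hℓ hℓN hℓS A hA σ hσ (M.r σ⁻¹ x)
  have h1 : M.r σ (M.r σ⁻¹ x) = x := by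
    rw [← Module.End.mul_apply, ← map_mul, mul_inv_cancel, map_one, Module.End.one_apply]
  rw [h1, Nat.cast_smul_eq_nsmul] at h
  have h2 : M.r σ x + ℓ • M.r σ⁻¹ x - (heckeAlgebra.T hℓ hℓN hℓS : heckeAlgebra N 2 S) • x = 0 := by
    rw [← h]; abel
  exact (sub_eq_zero.1 h2).symm

/-- induction principle for the anemic Hecke algebra when all primes dividing `N` are in `S`. -/
theorem heckeAlgebra_induction (hNS : ∀ q : ℕ, q.Prime → q ∣ N → q ∈ S)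
    (P : heckeAlgebra N 2 S → Prop)
    (hT : ∀ (ℓ : ℕ) (hℓ : ℓ.Prime) (hℓN : ¬ ℓ ∣ N) (hℓS : ℓ ∉ S), P (heckeAlgebra.T hℓ hℓN hℓS))
    (hint : ∀ n : ℤ, P (n : heckeAlgebra N 2 S))
    (hadd : ∀ a b, P a → P b → P (a + b)) (hmul : ∀ a b, P a → P b → P (a * b))
    (a : heckeAlgebra N 2 S) : P a := by
  obtain ⟨a, ha⟩ := a
  induction ha using Algebra.adjoin_induction with
  | mem t ht =>
    rcases ht with ⟨ℓ, hℓ, hℓN, hℓS, rfl⟩ | ⟨q, hqN, hq, hqS, rfl⟩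
    · exact hT ℓ hℓ hℓN hℓS
    · exact absurd (hNS q hq hqN) hqS
  | algebraMap r =>
    have h : (⟨algebraMap ℤ _ r, Subalgebra.algebraMap_mem _ r⟩ : heckeAlgebra N 2 S) =
        algebraMap ℤ (heckeAlgebra N 2 S) r := rfl
    rw [h, eq_intCast]
    exact hint r
  | add s t hs ht ihs iht => exact hadd ⟨s, hs⟩ ⟨t, ht⟩ ihs iht
  | mul s t hs ht ihs iht => exact hmul ⟨s, hs⟩ ⟨t, ht⟩ ihs iht

theorem map_smul_of_comm_gal (hNS : ∀ q : ℕ, q.Prime → q ∣ N → q ∈ S)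
    (M : HeckeGaloisModule N S p k) (F : M.W →+ M.W)
    (hF : ∀ (σ : GQ) (x : M.W), F (M.r σ x) = M.r σ (F x)) (a : heckeAlgebra N 2 S) (x : M.W) :
    F (a • x) = a • F x := by
  revert x
  induction a using heckeAlgebra_induction hNS with
  | hT ℓ hℓ hℓN hℓS =>
    intro x
    obtain ⟨σ, hσ⟩ := T_smul_eq M hℓ hℓN hℓS
    rw [hσ, hσ, map_add, map_nsmul, hF, hF]
  | hint n =>
    intro x
    rw [Int.cast_smul_eq_zsmul, Int.cast_smul_eq_zsmul, map_zsmul]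
  | hadd a b ha hb =>
    intro x
    rw [add_smul, add_smul, map_add, ha, hb]
  | hmul a b ha hb =>
    intro x
    rw [mul_smul, mul_smul, ha, hb]

theorem smul_mem_of_T_smul_mem (hNS : ∀ q : ℕ, q.Prime → q ∣ N → q ∈ S)
    (M : HeckeGaloisModule N S p k) (B : AddSubgroup M.W)
    (hB : ∀ (ℓ : ℕ) (hℓ : ℓ.Prime) (hℓN : ¬ ℓ ∣ N) (hℓS : ℓ ∉ S), ∀ x ∈ B,
      (heckeAlgebra.T hℓ hℓN hℓS : heckeAlgebra N 2 S) • x ∈ B)
    (a : heckeAlgebra N 2 S) (x : M.W) (hx : x ∈ B) : a • x ∈ B := by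
  revert x
  induction a using heckeAlgebra_induction hNS with
  | hT ℓ hℓ hℓN hℓS => exact hB ℓ hℓ hℓN hℓS
  | hint n =>
    intro x hx
    rw [Int.cast_smul_eq_zsmul]
    exact B.zsmul_mem hx n
  | hadd a b ha hb =>
    intro x hx
    rw [add_smul]
    exact B.add_mem (ha x hx) (hb x hx)
  | hmul a b ha hb =>
    intro x hx
    rw [mul_smul]
    exact ha _ (hb x hx)

end Fermat.Agent.S33
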