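import Fermat.Agent.S33.Wire.LocalDefs

/-!
# S33-WIRE, file 8: the fields (G), (S), (N) of `OrdLocal`
-/

set_option autoImplicit false

noncomputable section

namespace Fermat.Agent.S33

open CuspForm Fermat.Agent.S31 Fermat.Agent.GR Fermat.Agent.GR.I Fermat.Agent.GS ModularCurve

variable {p M0 : ℕ} [NeZero p] [NeZero (p * M0)]
  {S : Set ℕ} {hpS : p ∈ S} {K : KummerData (p * M0)} {hcrux : CruxAll (p * M0)} {hp : p.Prime}
  {w : FF Qbar (p * M0) ≃ₐ[Qbar] FF Qbar (p * M0)} {A : ValuationSubring Qbar}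

omit [NeZero p] in
private theorem localG_down (hp : p.Prime) (hcop : p.Coprime M0) {u u' : LaurentSeries Qbar}
    (hu : u ∈ FF Qbar M0) (hu' : u' ∈ FF Qbar M0) (hu0 : u ≠ 0)
    (h : KummerEquiv (p * M0) p u u') : KummerEquiv M0 p u u' := by
  have : NeZero M0 := ⟨fun h0 => NeZero.ne (p * M0) (by rw [h0, mul_zero])⟩
  rw [mul_comm] at h
  exact GR.D.LC.kummerEquiv_descend M0 p p hp ((Nat.Prime.coprime_iff_not_dvd hp).1 hcop)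
    hu hu' hu0 h

omit [NeZero p] [NeZero (p * M0)] in
private theorem localG_up {u u' : LaurentSeries Qbar} (h : KummerEquiv M0 p u u') :
    KummerEquiv (p * M0) p u u' := by
  obtain ⟨z, hz, hz0, e⟩ := h
  exact ⟨z, FW.FF_mono (Dvd.intro_left p rfl) hz, hz0, e⟩

private theorem localG_heckeMulT_mem (hp : p.Prime) (hcop : p.Coprime M0) {ζ : Qbarˣ}
    (hζ : IsPrimitiveRoot ζ p) {u : LaurentSeries Qbar} (hu : u ∈ FF Qbar M0) :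
    heckeMulT p ζ u ∈ FF Qbar M0 := by
  have : NeZero M0 := ⟨fun h0 => NeZero.ne (p * M0) (by rw [h0, mul_zero])⟩
  have : Fact p.Prime := ⟨hp⟩
  exact GR.B.heckeMulT_mem_FF_Qbar p ((Nat.Prime.coprime_iff_not_dvd hp).1 hcop) ζ hζ hu

variable (hcop : p.Coprime M0) (hw : IsWQ Qbar p M0 w)
  (hNS : ∀ q : ℕ, q.Prime → q ∣ p * M0 → q ∈ S)

include hcop hw hNS

theorem local_hG (hG : GoodOrd p M0 A)
    (Z : Submodule (heckeAlgebra (p * M0) 2 S) (WM S hpS K hcrux hp 1).W)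
    (hZg : ∀ (σ : GQ), ∀ z ∈ Z, (WM S hpS K hcrux hp 1).r σ z ∈ Z)
    (hZK : ∀ z ∈ Z, z ∈ KK0 S hpS K hcrux hp A)
    (hZP : ∀ z ∈ Z, popLin S hpS K hcrux hp w hcop hw hNS z ∈ Z)
    (hZs : ∀ z ∈ Z, ∃ z' ∈ Z, popLin S hpS K hcrux hp w hcop hw hNS z' = z)
    (τ : GQ) (hτ : τ ∈ A.inertiaSubgroupIn ℚ) (d : ℕ) (hd : CycExp p τ d) (z) (hz : z ∈ Z) :
    (WM S hpS K hcrux hp 1).r τ z = d • z := by
  classical
  obtain ⟨ζ, hζ⟩ := KummerData.exists_primitiveRoot p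
  have hfin : Finite (WM S hpS K hcrux hp 1).W := finite_towerM S hpS (tateD K hcrux hp) hp 1
  have hex : ∀ x : Z, ∃ u, IsKummer (N := M0) p u ∧ TrivAt M0 p A u ∧
      IsCl S hpS K hcrux hp 1 u (x : (WM S hpS K hcrux hp 1).W) :=
    fun x => mem_KK0.1 (hZK x x.2)
  choose f hf1 hf2 hf3 using hex
  have key := hG ζ hζ (Set.range f) (Set.finite_range f) ?_ ?_ ?_ τ hτ d hd (f ⟨z, hz⟩) ⟨_, rfl⟩
  · have h1 := (hf3 ⟨z, hz⟩).pow d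
    have h2 := (hf3 ⟨z, hz⟩).gal τ
    exact ((h1.eq_iff₁ h2).2 (localG_up key)).symm
  · rintro _ ⟨x, rfl⟩
    exact ⟨hf1 x, hf2 x⟩
  · rintro σ _ ⟨x, rfl⟩
    refine ⟨f ⟨_, hZg σ x x.2⟩, ⟨_, rfl⟩, ?_⟩
    have h1 := hf3 ⟨_, hZg σ x x.2⟩
    have h2 := (hf3 x).gal σ
    exact localG_down hp hcop (hf1 _).2.1 (GR.coeffMap_mem_FF _ (hf1 x).2.1) (hf1 _).1
      ((h1.eq_iff₁ h2).1 rfl)
  · rintro _ ⟨x, rfl⟩
    obtain ⟨z', hz', hzz'⟩ := hZs x x.2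
    refine ⟨f ⟨z', hz'⟩, ⟨_, rfl⟩, ?_⟩
    have h1 := hf3 x
    have h2 := (hf3 ⟨z', hz'⟩).heckeTp hcop hw hNS hζ (hf1 ⟨z', hz'⟩).2.1
    exact localG_down hp hcop (hf1 _).2.1 (localG_heckeMulT_mem hp hcop hζ (hf1 _).2.1) (hf1 _).1
      ((h1.eq_iff₁ h2).1 hzz'.symm)

theorem local_hS (hS : SSCrux p M0 A) (z : (WM S hpS K hcrux hp 1).W)
    (hz : z ∈ XX0 S hpS K hcrux hp) (hP : popLin S hpS K hcrux hp w hcop hw hNS z = 0)
    (hI : ∀ τ ∈ A.inertiaSubgroupIn ℚ, CycExp p τ 1 → (WM S hpS K hcrux hp 1).r τ z = z) :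
    z = 0 := by
  obtain ⟨ζ, hζ⟩ := KummerData.exists_primitiveRoot p
  obtain ⟨u, hu0, hu⟩ := mem_XX0.1 hz
  have h0 : IsCl S hpS K hcrux hp 1 1 0 := isCl_one 1
  have key := hS ζ hζ u hu0 ?_ ?_
  · exact ((h0.eq_iff₁ hu).2 (localG_up key)).symm
  · have h2 := hu.heckeTp hcop hw hNS hζ hu0.2.1
    exact localG_down hp hcop (one_mem _) (localG_heckeMulT_mem hp hcop hζ hu0.2.1) one_ne_zero
      ((h0.eq_iff₁ h2).1 hP.symm)
  · intro τ hτ hμ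
    have h2 := hu.gal τ
    have h3 : (WM S hpS K hcrux hp 1).r τ z = z :=
      hI τ hτ (fun μ h => by rw [hμ μ h, pow_one])
    exact localG_down hp hcop hu0.2.1 (GR.coeffMap_mem_FF _ hu0.2.1) hu0.1
      ((hu.eq_iff₁ h2).1 h3.symm)

theorem local_hN (hN : NodalOrd p M0 A) (z : (WM S hpS K hcrux hp 1).W)
    (hz : z ∈ KK S hpS K hcrux hp w A 1)
    (hwz : wLin S hpS K hcrux hp w hcop hw hNS z ∈ KK S hpS K hcrux hp w A 1)
    (hP : popLin S hpS K hcrux hp w hcop hw hNS z = 0)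
    (hPw : popLin S hpS K hcrux hp w hcop hw hNS (wLin S hpS K hcrux hp w hcop hw hNS z) = 0)
    (τ : GQ) (hτ : τ ∈ A.inertiaSubgroupIn ℚ) (d : ℕ) (hd : CycExp p τ d) :
    (WM S hpS K hcrux hp 1).r τ z = d • z := by
  obtain ⟨ζ, hζ⟩ := KummerData.exists_primitiveRoot p
  obtain ⟨u, hu, ht, htw⟩ := mem_KK_one.1 hz
  have hmem : u ∈ FF Qbar (p * M0) := hu.isKummer₁.2.1
  have h0 : IsCl S hpS K hcrux hp 1 1 0 := isCl_one 1
  have hwu : wfun w u = ((w ⟨u, hmem⟩ : FF Qbar (p * M0)) : LaurentSeries Qbar) :=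
    wfun_of_mem w hmem
  have hcw : IsCl S hpS K hcrux hp 1 ((w ⟨u, hmem⟩ : FF Qbar (p * M0)) : LaurentSeries Qbar)
      (wW S hpS K hcrux hp w z) := by
    rw [← hwu]
    exact hu.wfun
  have hp1 := IsCl.pop hcop hw hNS hζ (y := ⟨u, hmem⟩) hu
  have hp2 := IsCl.pop hcop hw hNS hζ (y := w ⟨u, hmem⟩) hcw
  have key := hN w hw ζ hζ ⟨u, hmem⟩ hu.isKummer₁ ht (hwu ▸ htw)
    ((h0.eq_iff₁ hp1).1 hP.symm) ((h0.eq_iff₁ hp2).1 hPw.symm) τ hτ d hd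
  exact (((hu.pow d).eq_iff₁ (hu.gal τ)).2 key).symm

end Fermat.Agent.S33
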