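import Fermat.Agent.S33.Wire.LocalK
import Fermat.Agent.S33.Wire.LocalG

/-!
# S33-WIRE, file 9: the local data `OrdLocal` from `GeoInput`
-/

set_option autoImplicit false

noncomputable section

namespace Fermat.Agent.S33

open CuspForm Fermat.Agent.S31 Fermat.Agent.GR Fermat.Agent.GR.I Fermat.Agent.GS ModularCurve

variable {p M0 : ℕ} [NeZero p] [NeZero (p * M0)]
  {S : Set ℕ} {hpS : p ∈ S} {K : KummerData (p * M0)} {hcrux : CruxAll (p * M0)} {hp : p.Prime}
  {w : FF Qbar (p * M0) ≃ₐ[Qbar] FF Qbar (p * M0)} {A : ValuationSubring Qbar}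

/-- the local data. -/
def ordLocal (hcop : p.Coprime M0) (hw : IsWQ Qbar p M0 w)
    (hNS : ∀ q : ℕ, q.Prime → q ∣ p * M0 → q ∈ S) (hinj : Function.Injective K.hecke)
    (G : GeoInput p M0 A) :
    OrdLocal (ordTower S hpS (tateD K hcrux hp) hp hinj) A where
  K := KK S hpS K hcrux hp w A
  K1 := fun k σ hσ X => local_K1 hcop hw hNS k σ hσ X
  K2 := fun a X hX => local_K2 hcop hw hNS G.heckeTriv a X hX
  K3 := fun k j hj X hX => local_K3 hcop hw hNS G.trivRoot k j hj X hX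
  w := wLin S hpS K hcrux hp w hcop hw hNS
  Pop := popLin S hpS K hcrux hp w hcop hw hNS
  w_gal := fun σ X => wW_gal hcop hw σ X
  Pop_gal := fun σ X => popLin_gal hcop hw hNS σ X
  X0 := XX0 S hpS K hcrux hp
  K0 := KK0 S hpS K hcrux hp A
  P1 := fun X => local_P1 hcop hw hNS G.popKummer X
  P2 := fun X hX => local_P2 hcop hw hNS G.popKummer G.popTriv X hX
  P3 := local_P3 hcop hw hNS
  P4 := fun X hX => local_P4 hcop hw hNS X hX
  hG := fun Z h1 h2 h3 h4 τ hτ d hd z hz => local_hG hcop hw hNS G.goodOrd Z h1 h2 h3 h4 τ hτ d hd z hz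
  hS := fun z hz hP hI => local_hS hcop hw hNS G.ssCrux z hz hP hI
  hN := fun z hz hwz hP hPw τ hτ d hd => local_hN hcop hw hNS G.nodalOrd z hz hwz hP hPw τ hτ d hd

end Fermat.Agent.S33
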