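import Fermat.Agent.S33.Iface
import Fermat.Agent.S33.Wire.ClassOp
import Fermat.Agent.S33.Wire.Comm
import Fermat.Agent.S33.Wire.Triv
import Fermat.Agent.GR.D.LevelChange

/-!
# S33-WIRE, file 6: the subgroups `K_k`, `X0`, `K0` and the operators `w`, `Pop` on `W_1`
-/

set_option autoImplicit false

noncomputable section

namespace Fermat.Agent.S33

open CuspForm Fermat.Agent.S31 Fermat.Agent.GR Fermat.Agent.GR.I Fermat.Agent.GS ModularCurve

variable {p M0 : ℕ} [NeZero p] [NeZero (p * M0)]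
  (S : Set ℕ) (hpS : p ∈ S) (K : KummerData (p * M0)) (hcrux : CruxAll (p * M0)) (hp : p.Prime)
  (w : FF Qbar (p * M0) ≃ₐ[Qbar] FF Qbar (p * M0)) (A : ValuationSubring Qbar)

/-- `K_k` : the classes which are trivial at both Gauss valuations. -/
def KK (k : ℕ) : AddSubgroup (WM S hpS K hcrux hp k).W where
  carrier := {X | ∃ u, IsCl S hpS K hcrux hp k u X ∧ TrivAt (p * M0) (p ^ k) A u ∧
    TrivAt (p * M0) (p ^ k) A (wfun w u)}
  zero_mem' := by
    refine ⟨1, isCl_one k, trivAt_one _ _ _, ?_⟩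
    rw [wfun_one]
    exact trivAt_one _ _ _
  add_mem' := by
    rintro X Y ⟨u, hu, hu1, hu2⟩ ⟨v, hv, hv1, hv2⟩
    refine ⟨u * v, hu.mul hv, trivAt_mul hu1 hv1, ?_⟩
    rw [wfun_mul w (trivAt_mem hu1) (trivAt_mem hv1)]
    exact trivAt_mul hu2 hv2
  neg_mem' := by
    rintro X ⟨u, hu, hu1, hu2⟩
    refine ⟨u⁻¹, hu.inv, trivAt_inv hu1, ?_⟩
    rw [wfun_inv w (trivAt_mem hu1)]
    exact trivAt_inv hu2

/-- classes of level `M0`. -/
def XX0 : AddSubgroup (WM S hpS K hcrux hp 1).W where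
  carrier := {X | ∃ u, IsKummer (N := M0) p u ∧ IsCl S hpS K hcrux hp 1 u X}
  zero_mem' := by
    exact ⟨1, kummer_isKummer_one, isCl_one 1⟩
  add_mem' := by
    rintro X Y ⟨u, hu, hu1⟩ ⟨v, hv, hv1⟩
    exact ⟨u * v, hu.mul hv, hu1.mul hv1⟩
  neg_mem' := by
    rintro X ⟨u, hu, hu1⟩
    exact ⟨u⁻¹, hu.inv, hu1.inv⟩

/-- classes of level `M0` which are trivial at the Gauss valuation of level `M0`. -/
def KK0 : AddSubgroup (WM S hpS K hcrux hp 1).W where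
  carrier := {X | ∃ u, IsKummer (N := M0) p u ∧ TrivAt M0 p A u ∧ IsCl S hpS K hcrux hp 1 u X}
  zero_mem' := by
    exact ⟨1, kummer_isKummer_one, trivAt_one _ _ _, isCl_one 1⟩
  add_mem' := by
    rintro X Y ⟨u, hu, hu2, hu1⟩ ⟨v, hv, hv2, hv1⟩
    exact ⟨u * v, hu.mul hv, trivAt_mul hu2 hv2, hu1.mul hv1⟩
  neg_mem' := by
    rintro X ⟨u, hu, hu2, hu1⟩
    exact ⟨u⁻¹, hu.inv, trivAt_inv hu2, hu1.inv⟩

variable {S hpS K hcrux hp w A}

theorem mem_KK {k : ℕ} {X : (WM S hpS K hcrux hp k).W} :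
    X ∈ KK S hpS K hcrux hp w A k ↔ ∃ u, IsCl S hpS K hcrux hp k u X ∧
      TrivAt (p * M0) (p ^ k) A u ∧ TrivAt (p * M0) (p ^ k) A (wfun w u) := Iff.rfl

theorem mem_KK_one {X : (WM S hpS K hcrux hp 1).W} :
    X ∈ KK S hpS K hcrux hp w A 1 ↔ ∃ u, IsCl S hpS K hcrux hp 1 u X ∧
      TrivAt (p * M0) p A u ∧ TrivAt (p * M0) p A (wfun w u) := by
  rw [mem_KK, pow_one]

theorem mem_XX0 {X : (WM S hpS K hcrux hp 1).W} :
    X ∈ XX0 S hpS K hcrux hp ↔ ∃ u, IsKummer (N := M0) p u ∧ IsCl S hpS K hcrux hp 1 u X :=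
  Iff.rfl

theorem mem_KK0 {X : (WM S hpS K hcrux hp 1).W} :
    X ∈ KK0 S hpS K hcrux hp A ↔
      ∃ u, IsKummer (N := M0) p u ∧ TrivAt M0 p A u ∧ IsCl S hpS K hcrux hp 1 u X :=
  Iff.rfl

/-- if one representative of a class in `K_k` is given, it is trivial at both valuations. -/
theorem trivAt_of_mem_KK {k : ℕ} {X : (WM S hpS K hcrux hp k).W} {u : LaurentSeries Qbar}
    (hX : X ∈ KK S hpS K hcrux hp w A k) (hu : IsCl S hpS K hcrux hp k u X) :
    TrivAt (p * M0) (p ^ k) A u ∧ TrivAt (p * M0) (p ^ k) A (wfun w u) := by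
  obtain ⟨u', hu', h1, h2⟩ := hX
  have he : KummerEquiv (p * M0) (p ^ k) u' u := (hu'.eq_iff hu).1 rfl
  exact ⟨trivAt_congr h1 he, trivAt_congr h2 (kummerEquiv_wfun w (trivAt_mem h1) he)⟩

/-! ### the operators `w` and `Pop` on `W_1` -/

variable (S hpS K hcrux hp w)

theorem exists_wW : ∃ F : (WM S hpS K hcrux hp 1).W →+ (WM S hpS K hcrux hp 1).W,
    ∀ u X, IsCl S hpS K hcrux hp 1 u X → IsCl S hpS K hcrux hp 1 (wfun w u) (F X) := by
  refine exists_lift_isCl 1 (wfun w) (fun u hu => isKummer_wfun w hu) (fun u v hu hv => ?_)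
    (fun u v hu _ h => kummerEquiv_wfun w hu.mem h)
  rw [wfun_mul w hu.mem hv.mem]
  exact KummerEquiv.refl _

/-- `w` on `W_1`, additive. -/
def wW : (WM S hpS K hcrux hp 1).W →+ (WM S hpS K hcrux hp 1).W :=
  (exists_wW S hpS K hcrux hp w).choose

variable {S hpS K hcrux hp w}

theorem IsCl.wfun {u : LaurentSeries Qbar} {X : (WM S hpS K hcrux hp 1).W}
    (h : IsCl S hpS K hcrux hp 1 u X) :
    IsCl S hpS K hcrux hp 1 (wfun w u) (wW S hpS K hcrux hp w X) :=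
  (exists_wW S hpS K hcrux hp w).choose_spec u X h

theorem wW_gal (hcop : p.Coprime M0) (hw : IsWQ Qbar p M0 w) (σ : GQ)
    (X : (WM S hpS K hcrux hp 1).W) :
    wW S hpS K hcrux hp w ((WM S hpS K hcrux hp 1).r σ X) =
      (WM S hpS K hcrux hp 1).r σ (wW S hpS K hcrux hp w X) := by
  obtain ⟨u, hu⟩ := exists_isCl (S := S) (hpS := hpS) (K := K) (hcrux := hcrux) (hp := hp) 1 X
  have h1 : IsCl S hpS K hcrux hp 1 (Fermat.Agent.S33.wfun w (GR.gal σ u))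
      (wW S hpS K hcrux hp w ((WM S hpS K hcrux hp 1).r σ X)) := (hu.gal σ).wfun
  have h2 : IsCl S hpS K hcrux hp 1 (GR.gal σ (Fermat.Agent.S33.wfun w u))
      ((WM S hpS K hcrux hp 1).r σ (wW S hpS K hcrux hp w X)) := (hu.wfun (w := w)).gal σ
  rw [wfun_gal hcop hw σ hu.isKummer.mem] at h1
  exact (h1.eq_iff h2).2 (KummerEquiv.refl _)

theorem wW_smul (hcop : p.Coprime M0) (hw : IsWQ Qbar p M0 w)
    (hNS : ∀ q : ℕ, q.Prime → q ∣ p * M0 → q ∈ S) (a : heckeAlgebra (p * M0) 2 S)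
    (X : (WM S hpS K hcrux hp 1).W) :
    wW S hpS K hcrux hp w (a • X) = a • wW S hpS K hcrux hp w X :=
  map_smul_of_comm_gal hNS _ _ (wW_gal hcop hw) a X

variable (S hpS K hcrux hp w)

/-- `w` on `W_1`, linear. -/
def wLin (hcop : p.Coprime M0) (hw : IsWQ Qbar p M0 w)
    (hNS : ∀ q : ℕ, q.Prime → q ∣ p * M0 → q ∈ S) :
    (WM S hpS K hcrux hp 1).W →ₗ[heckeAlgebra (p * M0) 2 S] (WM S hpS K hcrux hp 1).W where
  toFun := wW S hpS K hcrux hp w
  map_add' := map_add _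
  map_smul' := wW_smul hcop hw hNS

/-- `Pop = w + U_p` on `W_1`, linear. -/
def popLin (hcop : p.Coprime M0) (hw : IsWQ Qbar p M0 w)
    (hNS : ∀ q : ℕ, q.Prime → q ∣ p * M0 → q ∈ S) :
    (WM S hpS K hcrux hp 1).W →ₗ[heckeAlgebra (p * M0) 2 S] (WM S hpS K hcrux hp 1).W where
  toFun X := wW S hpS K hcrux hp w X + UW S hpS K hcrux hp 1 hp (Dvd.intro M0 rfl) X
  map_add' X Y := by
    rw [map_add, map_add]
    abel
  map_smul' a X := by
    rw [wW_smul hcop hw hNS, UW_smul, RingHom.id_apply, smul_add]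

variable {S hpS K hcrux hp w}

section

variable (hcop : p.Coprime M0) (hw : IsWQ Qbar p M0 w)
  (hNS : ∀ q : ℕ, q.Prime → q ∣ p * M0 → q ∈ S)

include hcop hw hNS

theorem IsCl.pop {ζ : Qbarˣ} (hζ : IsPrimitiveRoot ζ p) {y : FF Qbar (p * M0)}
    {X : (WM S hpS K hcrux hp 1).W} (h : IsCl S hpS K hcrux hp 1 (y : LaurentSeries Qbar) X) :
    IsCl S hpS K hcrux hp 1 (pop w ζ y) (popLin S hpS K hcrux hp w hcop hw hNS X) := by
  have h1 := (h.wfun (w := w)).mul (h.normT hp (Dvd.intro M0 rfl) hζ)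
  rw [wfun_coe] at h1
  exact h1

/-- on classes of level `M0`, `Pop` is `T_p`. -/
theorem IsCl.heckeTp {ζ : Qbarˣ} (hζ : IsPrimitiveRoot ζ p) {u : LaurentSeries Qbar}
    (hu : u ∈ FF Qbar M0) {X : (WM S hpS K hcrux hp 1).W} (h : IsCl S hpS K hcrux hp 1 u X) :
    IsCl S hpS K hcrux hp 1 (heckeMulT p ζ u) (popLin S hpS K hcrux hp w hcop hw hNS X) := by
  have h1 := (h.wfun (w := w)).mul (h.normT hp (Dvd.intro M0 rfl) hζ)
  rw [wfun_of_mem_level hcop hw hu] at h1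
  exact h1

theorem popLin_gal (σ : GQ) (X : (WM S hpS K hcrux hp 1).W) :
    popLin S hpS K hcrux hp w hcop hw hNS ((WM S hpS K hcrux hp 1).r σ X) =
      (WM S hpS K hcrux hp 1).r σ (popLin S hpS K hcrux hp w hcop hw hNS X) := by
  show wW S hpS K hcrux hp w ((WM S hpS K hcrux hp 1).r σ X) +
      UW S hpS K hcrux hp 1 hp (Dvd.intro M0 rfl) ((WM S hpS K hcrux hp 1).r σ X) =
    (WM S hpS K hcrux hp 1).r σ (wW S hpS K hcrux hp w X +
      UW S hpS K hcrux hp 1 hp (Dvd.intro M0 rfl) X)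
  rw [wW_gal hcop hw, UW_gal, map_add]

end

end Fermat.Agent.S33
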