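import Fermat.Agent.S33.Wire.LocalDefs

/-!
# S33-WIRE, file 7: the fields (K1)-(K3), (P1)-(P4) of `OrdLocal`
-/

set_option autoImplicit false

noncomputable section

namespace Fermat.Agent.S33

open CuspForm Fermat.Agent.S31 Fermat.Agent.GR Fermat.Agent.GR.I Fermat.Agent.GS ModularCurve

variable {p M0 : ℕ} [NeZero p] [NeZero (p * M0)]
  {S : Set ℕ} {hpS : p ∈ S} {K : KummerData (p * M0)} {hcrux : CruxAll (p * M0)} {hp : p.Prime}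
  {w : FF Qbar (p * M0) ≃ₐ[Qbar] FF Qbar (p * M0)} {A : ValuationSubring Qbar}

variable (hcop : p.Coprime M0) (hw : IsWQ Qbar p M0 w)
  (hNS : ∀ q : ℕ, q.Prime → q ∣ p * M0 → q ∈ S)

include hcop hw hNS

theorem local_K1 (k : ℕ) (σ : GQ) (hσ : σ ∈ A.inertiaSubgroupIn ℚ)
    (X : (WM S hpS K hcrux hp k).W) :
    (WM S hpS K hcrux hp k).r σ X - X ∈ KK S hpS K hcrux hp w A k := by
  obtain ⟨u, hu⟩ := exists_isCl (S := S) (hpS := hpS) (K := K) (hcrux := hcrux) (hp := hp) k X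
  have hn : 0 < p ^ k := pow_pos hp.pos k
  have hm := hu.isKummer.mem
  have h0 := hu.isKummer.ne_zero
  have hg := hu.gal σ
  refine mem_KK.mpr ⟨GR.gal σ u / u, hg.div hu, trivAt_gal_div hn hσ hm h0, ?_⟩
  rw [wfun_div w hg.isKummer.mem hm, wfun_gal hcop hw σ hm]
  exact trivAt_gal_div hn hσ (wfun_mem w u) (wfun_ne_zero w hm h0)

theorem local_K2 (hT : HeckeTriv (p * M0) p A) (a : heckeAlgebra (p * M0) 2 S)
    (X : (WM S hpS K hcrux hp 1).W) (hX : X ∈ KK S hpS K hcrux hp w A 1) :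
    a • X ∈ KK S hpS K hcrux hp w A 1 := by
  refine smul_mem_of_T_smul_mem hNS (WM S hpS K hcrux hp 1) (KK S hpS K hcrux hp w A 1) ?_ a X hX
  intro ℓ hℓ hℓN hℓS x hx
  obtain ⟨u, hu, h1, h2⟩ := mem_KK_one.mp hx
  have : NeZero ℓ := ⟨hℓ.ne_zero⟩
  obtain ⟨ζ, hζ⟩ := KummerData.exists_primitiveRoot ℓ
  have hA : IsCl S hpS K hcrux hp 1 (wfun w (heckeMulT ℓ ζ u)) _ :=
    (hu.heckeT hℓ hℓN hℓS hζ).wfun (w := w)
  have hB := (hu.wfun (w := w)).heckeT hℓ hℓN hℓS hζ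
  refine mem_KK_one.mpr ⟨heckeMulT ℓ ζ u, hu.heckeT hℓ hℓN hℓS hζ, hT ℓ hℓ hℓN ζ hζ u h1, ?_⟩
  exact trivAt_congr (hT ℓ hℓ hℓN ζ hζ _ h2) ((hB.eq_iff₁ hA).mp (wW_smul hcop hw hNS _ x).symm)

theorem local_K3 (hR : TrivRoot (p * M0) p A) (k j : ℕ) (hj : j < k)
    (X : (WM S hpS K hcrux hp k).W) (hX : (p ^ j) • X ∈ KK S hpS K hcrux hp w A k) :
    tred S hpS (tateD K hcrux hp) k X ∈ KK S hpS K hcrux hp w A 1 := by
  obtain ⟨u, hu⟩ := exists_isCl (S := S) (hpS := hpS) (K := K) (hcrux := hcrux) (hp := hp) k X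
  have hm := hu.isKummer.mem
  have h0 := hu.isKummer.ne_zero
  obtain ⟨h1, h2⟩ := trivAt_of_mem_KK hX (hu.pow (p ^ j))
  rw [wfun_pow w hm] at h2
  exact mem_KK_one.mpr ⟨u, hu.red (by omega), hR k j hj u hm h0 h1,
    hR k j hj _ (wfun_mem w u) (wfun_ne_zero w hm h0) h2⟩

theorem local_P1 (hPK : PopKummer p M0) (X : (WM S hpS K hcrux hp 1).W) :
    popLin S hpS K hcrux hp w hcop hw hNS X ∈ XX0 S hpS K hcrux hp := by
  obtain ⟨u, hu⟩ := exists_isCl (S := S) (hpS := hpS) (K := K) (hcrux := hcrux) (hp := hp) 1 X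
  obtain ⟨ζ, hζ⟩ := KummerData.exists_primitiveRoot p
  let y : FF Qbar (p * M0) := ⟨u, hu.isKummer.mem⟩
  have hy : IsCl S hpS K hcrux hp 1 (y : LaurentSeries Qbar) X := hu
  exact mem_XX0.mpr ⟨pop w ζ y, hPK w hw ζ hζ y hu.isKummer₁, hy.pop hcop hw hNS hζ⟩

theorem local_P2 (hPK : PopKummer p M0) (hPT : PopTriv p M0 A) (X : (WM S hpS K hcrux hp 1).W)
    (hX : X ∈ KK S hpS K hcrux hp w A 1) :
    popLin S hpS K hcrux hp w hcop hw hNS X ∈ KK0 S hpS K hcrux hp A := by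
  obtain ⟨u, hu, h1, h2⟩ := mem_KK_one.mp hX
  obtain ⟨ζ, hζ⟩ := KummerData.exists_primitiveRoot p
  let y : FF Qbar (p * M0) := ⟨u, hu.isKummer.mem⟩
  have hy : IsCl S hpS K hcrux hp 1 (y : LaurentSeries Qbar) X := hu
  rw [wfun_of_mem w hu.isKummer.mem] at h2
  exact mem_KK0.mpr ⟨pop w ζ y, hPK w hw ζ hζ y hu.isKummer₁,
    hPT w hw ζ hζ y hu.isKummer₁ h1 h2, hy.pop hcop hw hNS hζ⟩

theorem local_P3 : KK0 S hpS K hcrux hp A ≤ KK S hpS K hcrux hp w A 1 := by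
  intro X hX
  obtain ⟨u, hK, hT, hu⟩ := mem_KK0.mp hX
  refine mem_KK_one.mpr ⟨u, hu, trivAt_mono (Dvd.intro_left p rfl) hT, ?_⟩
  rw [wfun_of_mem_level hcop hw hK.mem]
  exact trivAt_qExpand p hT

theorem local_P4 (X : (WM S hpS K hcrux hp 1).W) (hX : X ∈ KK S hpS K hcrux hp w A 1) :
    wLin S hpS K hcrux hp w hcop hw hNS X ∈ KK S hpS K hcrux hp w A 1 := by
  obtain ⟨u, hu, h1, h2⟩ := mem_KK_one.mp hX
  refine mem_KK_one.mpr ⟨wfun w u, hu.wfun, h2, ?_⟩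
  rw [wfun_wfun hcop hw hu.isKummer.mem]
  exact h1

end Fermat.Agent.S33
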