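import Fermat.Agent.S33.Alg.Defs
import Fermat.Agent.S31.Bridge

/-!
# S33-WIRE, file 1: the explicit Hecke-Galois modules `Λ / p ^ k Λ` and the tower `OrdTower`
-/

set_option autoImplicit false

namespace Fermat.Agent.S33

open CuspForm Fermat.Agent.S31

variable {N : ℕ} [NeZero N] {p : ℕ}

/-- the inclusion of the anemic Hecke algebra in the full one. -/
noncomputable def incH (N : ℕ) [NeZero N] (S : Set ℕ) : heckeAlgebra N 2 S →+* GR.H.HeckeFull N :=
  (Subalgebra.inclusion (heckeAlgebra_mono (Set.empty_subset S))).toRingHom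

theorem incH_injective (S : Set ℕ) : Function.Injective (incH N S) :=
  Subalgebra.inclusion_injective _

theorem incH_T (S : Set ℕ) {ℓ : ℕ} (hℓ : ℓ.Prime) (hℓN : ¬ ℓ ∣ N) (hℓS : ℓ ∉ S) :
    incH N S (heckeAlgebra.T hℓ hℓN hℓS) = GR.H.HeckeFull.T hℓ hℓN := Subtype.ext rfl

/-- the carrier `Λ / p ^ k Λ`. -/
abbrev TW (D : GR.H.TateData N p) (k : ℕ) : Type := D.Λ ⧸ Bridge_sub D.Λ (p ^ k)

/-- the action of the anemic Hecke algebra on `Λ / p ^ k Λ`. -/
noncomputable def towerψ (S : Set ℕ) (D : GR.H.TateData N p) (k : ℕ) :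
    heckeAlgebra N 2 S →+* Module.End ℤ (TW D k) :=
  (Bridge_red (Λ := D.Λ) (p ^ k)).comp (D.hecke.comp (incH N S))

/-- the action of `G_ℚ` on `Λ / p ^ k Λ`. -/
noncomputable def towerg (D : GR.H.TateData N p) (k : ℕ) (σ : GQ) : Module.End ℤ (TW D k) :=
  Bridge_red (Λ := D.Λ) (p ^ k) (D.gal k σ)

theorem towerg_one (D : GR.H.TateData N p) (k : ℕ) : towerg D k 1 = 1 := by
  rw [towerg, ← map_one (Bridge_red (Λ := D.Λ) (p ^ k))]
  exact Bridge_red_eq _ (D.gal_one k)

theorem towerg_mul (D : GR.H.TateData N p) (k : ℕ) (σ τ : GQ) :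
    towerg D k (σ * τ) = towerg D k σ * towerg D k τ := by
  rw [towerg, towerg, towerg, ← map_mul (Bridge_red (Λ := D.Λ) (p ^ k))]
  exact Bridge_red_eq _ (D.gal_mul k σ τ)

theorem towerg_comm (S : Set ℕ) (D : GR.H.TateData N p) (k : ℕ) (σ : GQ)
    (t : heckeAlgebra N 2 S) : towerg D k σ * towerψ S D k t = towerψ S D k t * towerg D k σ := by
  show Bridge_red (p ^ k) (D.gal k σ) * Bridge_red (p ^ k) (D.hecke (incH N S t)) =
    Bridge_red (p ^ k) (D.hecke (incH N S t)) * Bridge_red (p ^ k) (D.gal k σ)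
  rw [← map_mul, ← map_mul]
  exact Bridge_red_eq _ (D.gal_hecke k σ (incH N S t))

/-- the Hecke-Galois module `Λ / p ^ k Λ`, explicitly. -/
noncomputable def towerM (S : Set ℕ) (hpS : p ∈ S) (D : GR.H.TateData N p) (k : ℕ) :
    HeckeGaloisModule N S p k where
  W := TW D k
  instAddCommGroup := inferInstance
  instModule := Module.compHom _ (towerψ S D k)
  r := Bridge_rep (towerψ S D k) (towerg D k) (towerg_one D k) (towerg_mul D k)
    (towerg_comm S D k)
  level := by
    letI : Module (heckeAlgebra N 2 S) (TW D k) := Module.compHom _ (towerψ S D k)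
    obtain ⟨L, hL, hL'⟩ := D.gal_level k
    refine ⟨L, hL, fun σ hσ => LinearMap.ext fun w => ?_⟩
    have : towerg D k σ = 1 := by
      rw [towerg, ← map_one (Bridge_red (Λ := D.Λ) (p ^ k))]
      exact Bridge_red_eq _ (hL' σ hσ)
    exact LinearMap.congr_fun this w
  killed := by
    intro w
    induction w using Submodule.Quotient.induction_on with
    | _ x =>
      rw [← Submodule.Quotient.mk_smul, Submodule.Quotient.mk_eq_zero]
      exact (Bridge_mem_sub _).mpr ⟨x, (natCast_zsmul _ _).symm⟩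
  eichlerShimura := by
    intro ℓ hℓ hℓN hℓS A hA σ hσ w
    have hℓp : ℓ ≠ p := fun h => hℓS (h ▸ hpS)
    have key := Bridge_red_eq _ (D.gal_frob ℓ hℓ hℓN hℓp A hA σ hσ k)
    have key' := LinearMap.congr_fun key w
    have e2 : towerψ S D k (ℓ : heckeAlgebra N 2 S) = Bridge_red (p ^ k) ((ℓ : ℤ) • 1) := by
      show Bridge_red (p ^ k) (D.hecke (incH N S (ℓ : heckeAlgebra N 2 S))) = _
      rw [map_natCast, map_natCast]
      congr 1
      simp
    show towerg D k σ (towerg D k σ w) - towerψ S D k (heckeAlgebra.T hℓ hℓN hℓS) (towerg D k σ w)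
      + towerψ S D k (ℓ : heckeAlgebra N 2 S) w = 0
    rw [e2]
    show Bridge_red (p ^ k) (D.gal k σ) (Bridge_red (p ^ k) (D.gal k σ) w) -
      Bridge_red (p ^ k) (D.hecke (incH N S (heckeAlgebra.T hℓ hℓN hℓS)))
        (Bridge_red (p ^ k) (D.gal k σ) w) + _ = 0
    rw [incH_T]
    rw [map_add, map_sub, map_mul, map_mul, map_zero] at key'
    exact key'
  unramified := by
    letI : Module (heckeAlgebra N 2 S) (TW D k) := Module.compHom _ (towerψ S D k)
    intro q hq hqN hqp P hP σ hσ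
    refine LinearMap.ext fun w => ?_
    have : towerg D k σ = 1 := by
      rw [towerg, ← map_one (Bridge_red (Λ := D.Λ) (p ^ k))]
      exact Bridge_red_eq _ (D.gal_unram q hq hqN hqp P hP σ hσ k)
    exact LinearMap.congr_fun this w

/-- the class of `x : Λ` in `W_k`. -/
def tmk (S : Set ℕ) (hpS : p ∈ S) (D : GR.H.TateData N p) (k : ℕ) (x : D.Λ) :
    (towerM S hpS D k).W :=
  (Submodule.Quotient.mk x : TW D k)

section API

variable (S : Set ℕ) (hpS : p ∈ S) (D : GR.H.TateData N p) (k : ℕ)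

theorem tmk_surjective : Function.Surjective (tmk S hpS D k) :=
  Submodule.Quotient.mk_surjective _

theorem tmk_add (x y : D.Λ) : tmk S hpS D k (x + y) = tmk S hpS D k x + tmk S hpS D k y := rfl

theorem tmk_sub (x y : D.Λ) : tmk S hpS D k (x - y) = tmk S hpS D k x - tmk S hpS D k y := rfl

theorem tmk_zero : tmk S hpS D k 0 = 0 := rfl

theorem tmk_nsmul (e : ℕ) (x : D.Λ) : tmk S hpS D k (e • x) = e • tmk S hpS D k x := rfl

theorem tmk_eq_iff (x y : D.Λ) :
    tmk S hpS D k x = tmk S hpS D k y ↔ ∃ z : D.Λ, x - y = ((p ^ k : ℕ) : ℤ) • z := by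
  show (Submodule.Quotient.mk x : TW D k) = Submodule.Quotient.mk y ↔ _
  rw [Submodule.Quotient.eq, Bridge_mem_sub]

theorem tmk_eq_zero_iff (x : D.Λ) :
    tmk S hpS D k x = 0 ↔ ∃ z : D.Λ, x = ((p ^ k : ℕ) : ℤ) • z := by
  rw [← tmk_zero, tmk_eq_iff, sub_zero]

theorem r_tmk (σ : GQ) (x : D.Λ) :
    (towerM S hpS D k).r σ (tmk S hpS D k x) = tmk S hpS D k (D.gal k σ x) := rfl

theorem smul_tmk (a : heckeAlgebra N 2 S) (x : D.Λ) :
    a • tmk S hpS D k x = tmk S hpS D k (D.hecke (incH N S a) x) := rfl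

/-- an endomorphism of `Λ` acting on `W_k`. -/
noncomputable def tEnd (f : Module.End ℤ D.Λ) : (towerM S hpS D k).W →+ (towerM S hpS D k).W :=
  (Bridge_red (Λ := D.Λ) (p ^ k) f).toAddMonoidHom

theorem tEnd_tmk (f : Module.End ℤ D.Λ) (x : D.Λ) :
    tEnd S hpS D k f (tmk S hpS D k x) = tmk S hpS D k (f x) := rfl

end API

end Fermat.Agent.S33
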