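import Fermat.Agent.S33.Wire.Module

/-!
# S33-WIRE, file 2: the tower `OrdTower` of the modules `Λ / p ^ k Λ`
-/

set_option autoImplicit false

namespace Fermat.Agent.S33

open CuspForm Fermat.Agent.S31

variable {N : ℕ} [NeZero N] {p : ℕ} (S : Set ℕ) (hpS : p ∈ S) (D : GR.H.TateData N p)

theorem finite_towerM (hp : p.Prime) (k : ℕ) : Finite (towerM S hpS D k).W := by
  have htors : Module.IsTorsion ℤ (TW D k) := by
    intro w
    refine ⟨⟨((p ^ k : ℕ) : ℤ), mem_nonZeroDivisors_of_ne_zero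
      (by exact_mod_cast (pow_pos hp.pos k).ne')⟩, ?_⟩
    have := (towerM S hpS D k).killed w
    show ((p ^ k : ℕ) : ℤ) • w = 0
    rw [natCast_zsmul]
    exact this
  exact Module.finite_of_fg_torsion (TW D k) htors

/-- `gal k σ ≡ gal 1 σ` modulo `p` for `1 ≤ k`. -/
theorem endCong_gal_one (k : ℕ) (hk : 1 ≤ k) (σ : GQ) :
    GR.H.EndCong (p ^ 1) (D.gal k σ) (D.gal 1 σ) := by
  induction k, hk using Nat.le_induction with
  | base => exact ⟨0, by simp⟩
  | succ k hk ih =>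
    obtain ⟨h1, hh1⟩ := ih
    obtain ⟨h2, hh2⟩ := D.gal_succ k σ
    obtain ⟨j, rfl⟩ := Nat.exists_eq_add_of_le hk
    refine ⟨((p ^ j : ℕ) : ℤ) • h2 + h1, ?_⟩
    have : D.gal (1 + j + 1) σ - D.gal 1 σ =
        (D.gal (1 + j + 1) σ - D.gal (1 + j) σ) + (D.gal (1 + j) σ - D.gal 1 σ) := by abel
    rw [this, hh1, hh2, smul_add, smul_smul]
    push_cast
    rw [pow_add]

theorem exists_tred (k : ℕ) :
    ∃ f : (towerM S hpS D k).W →ₗ[heckeAlgebra N 2 S] (towerM S hpS D 1).W,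
      1 ≤ k → ∀ x : D.Λ, f (tmk S hpS D k x) = tmk S hpS D 1 x := by
  by_cases hk : 1 ≤ k
  · have hle : Bridge_sub D.Λ (p ^ k) ≤ (Bridge_sub D.Λ (p ^ 1)).comap LinearMap.id := by
      intro x hx
      obtain ⟨y, rfl⟩ := (Bridge_mem_sub _).mp hx
      obtain ⟨j, rfl⟩ := Nat.exists_eq_add_of_le hk
      refine (Bridge_mem_sub _).mpr ⟨((p ^ j : ℕ) : ℤ) • y, ?_⟩
      rw [smul_smul]
      push_cast
      rw [pow_add]
    let g : TW D k →ₗ[ℤ] TW D 1 := Submodule.mapQ _ _ LinearMap.id hle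
    refine ⟨{ toFun := g, map_add' := g.map_add, map_smul' := ?_ }, fun _ x => rfl⟩
    intro a w
    obtain ⟨x, rfl⟩ := tmk_surjective S hpS D k w
    rfl
  · exact ⟨0, fun h => absurd h hk⟩

/-- the reduction `W_k → W_1` (zero for `k = 0`). -/
noncomputable def tred (k : ℕ) :
    (towerM S hpS D k).W →ₗ[heckeAlgebra N 2 S] (towerM S hpS D 1).W :=
  (exists_tred S hpS D k).choose

theorem tred_tmk {k : ℕ} (hk : 1 ≤ k) (x : D.Λ) :
    tred S hpS D k (tmk S hpS D k x) = tmk S hpS D 1 x :=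
  (exists_tred S hpS D k).choose_spec hk x

theorem subsingleton_towerM_zero : Subsingleton (towerM S hpS D 0).W := by
  refine ⟨fun a b => ?_⟩
  obtain ⟨x, rfl⟩ := tmk_surjective S hpS D 0 a
  obtain ⟨y, rfl⟩ := tmk_surjective S hpS D 0 b
  exact (tmk_eq_iff S hpS D 0 x y).2 ⟨x - y, by simp⟩

theorem tred_ker (k : ℕ) (hk : 1 ≤ k) (x : (towerM S hpS D k).W) (hx : tred S hpS D k x = 0) :
    ∃ y : (towerM S hpS D k).W, x = p • y := by
  obtain ⟨x', rfl⟩ := tmk_surjective S hpS D k x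
  rw [tred_tmk S hpS D hk, tmk_eq_zero_iff] at hx
  obtain ⟨z, rfl⟩ := hx
  refine ⟨tmk S hpS D k z, ?_⟩
  rw [← tmk_nsmul, pow_one, natCast_zsmul]

theorem tred_gal (k : ℕ) (σ : GQ) (x : (towerM S hpS D k).W) :
    tred S hpS D k ((towerM S hpS D k).r σ x) = (towerM S hpS D 1).r σ (tred S hpS D k x) := by
  rcases Nat.eq_zero_or_pos k with rfl | hk
  · have := subsingleton_towerM_zero S hpS D
    rw [Subsingleton.elim x 0, map_zero, map_zero, map_zero]
  · obtain ⟨x', rfl⟩ := tmk_surjective S hpS D k x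
    rw [r_tmk, tred_tmk S hpS D hk, tred_tmk S hpS D hk, r_tmk, tmk_eq_iff]
    obtain ⟨h, hh⟩ := endCong_gal_one D k hk σ
    exact ⟨h x', LinearMap.congr_fun hh x'⟩

theorem towerM_tors (hp : p.Prime) (k j : ℕ) (hj : j ≤ k) (x : (towerM S hpS D k).W)
    (hx : (p ^ j) • x = 0) : ∃ y : (towerM S hpS D k).W, x = (p ^ (k - j)) • y := by
  obtain ⟨x', rfl⟩ := tmk_surjective S hpS D k x
  rw [← tmk_nsmul, tmk_eq_zero_iff] at hx
  obtain ⟨z, hz⟩ := hx
  refine ⟨tmk S hpS D k z, ?_⟩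
  rw [← tmk_nsmul]
  congr 1
  obtain ⟨i, rfl⟩ := Nat.exists_eq_add_of_le hj
  rw [Nat.add_sub_cancel_left]
  have h0 : ((p ^ j : ℕ) : ℤ) ≠ 0 := by exact_mod_cast (pow_pos hp.pos j).ne'
  have h1 : ((p ^ j : ℕ) : ℤ) • x' = ((p ^ j : ℕ) : ℤ) • (p ^ i • z) := by
    rw [natCast_zsmul, hz, ← natCast_zsmul z (p ^ i), smul_smul]
    push_cast
    rw [pow_add]
  exact smul_right_injective D.Λ h0 h1

theorem exists_faithful_bound (hp : p.Prime) (hinj : Function.Injective D.hecke) :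
    ∃ c₀ : ℕ, ∀ (k : ℕ) (a : heckeAlgebra N 2 S), (∀ w : (towerM S hpS D k).W, a • w = 0) →
      ∃ (c : ℕ) (a' : heckeAlgebra N 2 S), ¬ p ∣ c ∧ c • a = (p ^ (k - c₀) : ℕ) • a' := by
  obtain ⟨c₀, hc₀⟩ := exists_artinRees_bound (D.hecke.comp (incH N S))
    (hinj.comp (incH_injective S)) p
  refine ⟨c₀, fun k a ha => ?_⟩
  have hdiv : ∃ h : Module.End ℤ D.Λ, D.hecke (incH N S a) = (p ^ k : ℕ) • h := by
    refine Bridge_exists_smul (p ^ k) _ fun x => ?_
    have := ha (tmk S hpS D k x)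
    rw [smul_tmk, tmk_eq_zero_iff] at this
    exact this
  obtain ⟨a', ha'⟩ := hc₀ k a hdiv
  exact ⟨1, a', fun h => hp.one_lt.ne' (Nat.dvd_one.mp h), by rw [one_smul]; exact ha'⟩

/-- the tower. -/
noncomputable def ordTower (hp : p.Prime) (hinj : Function.Injective D.hecke) :
    OrdTower N S p where
  M := towerM S hpS D
  finite := finite_towerM S hpS D hp
  c₀ := (exists_faithful_bound S hpS D hp hinj).choose
  faithful := (exists_faithful_bound S hpS D hp hinj).choose_spec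
  red := tred S hpS D
  red_ker := tred_ker S hpS D
  red_gal := tred_gal S hpS D
  tors := towerM_tors S hpS D hp

end Fermat.Agent.S33
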